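import Fermat.Agent.CapSet.SliceRank
import Mathlib.Algebra.MvPolynomial.Degrees
import Mathlib.Data.Nat.Choose.Sum
import Mathlib.Analysis.Calculus.Deriv.Pow
import Mathlib.Analysis.Calculus.Deriv.Mul
import Mathlib.Analysis.Calculus.Deriv.Slope

/-!
# Sets on which a product of ternary polynomials is diagonal

The monomials of `∏ P (a_i, b_i, c_i)`, `deg P ≤ D`, have degree at most `D n`, so one of the three
variables has degree at most `D n / 3` (Croot–Lev–Pach, Ellenberg–Gijswijt).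
-/

set_option autoImplicit false

noncomputable section

namespace FA.CapSet

open Finset

/-- The exponents of total degree at most `D n / 3`, each at most `D`. -/
def lowExps (n D : ℕ) : Finset (Fin n → Fin (D + 1)) :=
  univ.filter fun e => 3 * ∑ i, (e i : ℕ) ≤ D * n

variable {k : Type*} [Field k] {n : ℕ} (P : MvPolynomial (Fin 3) k)

/-- The exponents of one variable in a monomial of the product. -/
def expsOf (D : ℕ) (t : Fin 3) (φ : Fin n → P.support) : Fin n → Fin (D + 1) :=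
  fun i => Fin.ofNat (D + 1) ((φ i).1 t)

theorem exponent_le {P : MvPolynomial (Fin 3) k} {D : ℕ} (hD : P.totalDegree ≤ D)
    (d : P.support) : d.1 0 + d.1 1 + d.1 2 ≤ D := by
  refine le_trans (le_of_eq ?_) ((MvPolynomial.le_totalDegree d.2).trans hD)
  rw [Finsupp.sum_fintype _ _ (fun _ => rfl), Fin.sum_univ_three]

theorem expsOf_val {P : MvPolynomial (Fin 3) k} {D : ℕ} (hD : P.totalDegree ≤ D) (t : Fin 3)
    (φ : Fin n → P.support) (i : Fin n) : (expsOf P D t φ i : ℕ) = (φ i).1 t := by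
  have := exponent_le hD (φ i)
  rw [expsOf, Fin.val_ofNat, Nat.mod_eq_of_lt]
  fin_cases t <;> simp <;> omega

theorem exists_low {P : MvPolynomial (Fin 3) k} {D : ℕ} (hD : P.totalDegree ≤ D)
    (φ : Fin n → P.support) :
    expsOf P D 0 φ ∈ lowExps n D ∨ expsOf P D 1 φ ∈ lowExps n D ∨
      expsOf P D 2 φ ∈ lowExps n D := by
  have h : ∑ i, ((φ i).1 0 + (φ i).1 1 + (φ i).1 2) ≤ D * n :=
    (Finset.sum_le_sum fun i _ => exponent_le hD (φ i)).trans (by simp [mul_comm])
  simp only [Finset.sum_add_distrib] at h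
  simp only [lowExps, mem_filter, mem_univ, true_and, expsOf_val hD]
  omega

/-- **The Croot–Lev–Pach bound.** -/
theorem card_le_three_mul {A : Finset (Fin n → k)} {D : ℕ} (hD : P.totalDegree ≤ D)
    (hdiag : ∀ a ∈ A, ∀ i, MvPolynomial.eval ![a i, a i, a i] P ≠ 0)
    (hoff : ∀ a ∈ A, ∀ b ∈ A, ∀ c ∈ A, ¬(a = b ∧ b = c) →
      ∃ i, MvPolynomial.eval ![a i, b i, c i] P = 0) :
    A.card ≤ 3 * (lowExps n D).card := by
  classical
  set M := lowExps n D
  let m : Fin 3 → (Fin n → P.support) → A → k :=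
    fun t φ a => ∏ i, a.1 i ^ ((φ i).1 t)
  let cf : (Fin n → P.support) → k := fun φ => ∏ i, P.coeff (φ i).1
  -- the monomials are sorted by the first variable of low degree
  let S₀ := (univ : Finset (Fin n → P.support)).filter fun φ => expsOf P D 0 φ ∈ M
  let S₁ := (univ : Finset (Fin n → P.support)).filter fun φ =>
    expsOf P D 0 φ ∉ M ∧ expsOf P D 1 φ ∈ M
  let S₂ := (univ : Finset (Fin n → P.support)).filter fun φ =>
    expsOf P D 0 φ ∉ M ∧ expsOf P D 1 φ ∉ M
  let mon : (Fin n → Fin (D + 1)) → A → k := fun e a => ∏ i, a.1 i ^ (e i : ℕ)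
  let G : Finset (Fin n → P.support) → Fin 3 → Fin 3 → Fin 3 → M → A → A → k :=
    fun S t t' t'' e x y =>
      ∑ φ ∈ S.filter (fun φ => expsOf P D t φ = e.1), cf φ * (m t' φ x * m t'' φ y)
  have hexp : ∀ a b c : A, ∏ i, MvPolynomial.eval ![a.1 i, b.1 i, c.1 i] P =
      ∑ φ, cf φ * (m 0 φ a * m 1 φ b * m 2 φ c) := by
    intro a b c
    have h1 : ∀ i, MvPolynomial.eval ![a.1 i, b.1 i, c.1 i] P =
        ∑ d : P.support, P.coeff d.1 * (a.1 i ^ d.1 0 * b.1 i ^ d.1 1 * c.1 i ^ d.1 2) := by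
      intro i
      rw [MvPolynomial.eval_eq', ← Finset.sum_coe_sort]
      refine Finset.sum_congr rfl fun d _ => ?_
      rw [Fin.prod_univ_three]
      simp
    simp only [h1, Fintype.prod_sum, cf, m, ← Finset.prod_mul_distrib]
  have hfib : ∀ (S : Finset (Fin n → P.support)) (t : Fin 3) (x : A)
      (R : (Fin n → P.support) → k), (∀ φ ∈ S, expsOf P D t φ ∈ M) →
      ∑ φ ∈ S, m t φ x * R φ =
        ∑ e : M, mon e.1 x * ∑ φ ∈ S.filter (fun φ => expsOf P D t φ = e.1), R φ := by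
    intro S t x R hS
    rw [Finset.sum_coe_sort M fun e => mon e x * ∑ φ ∈ S.filter (fun φ => expsOf P D t φ = e),
      R φ, ← Finset.sum_fiberwise_of_maps_to hS]
    refine Finset.sum_congr rfl fun e _ => ?_
    rw [Finset.mul_sum]
    refine Finset.sum_congr rfl fun φ hφ => ?_
    rw [← (mem_filter.1 hφ).2]
    simp only [mon, m, expsOf_val hD]
  have h := card_le_of_slices (A := A) (ι := M) (κ := M) (μ := M)
    (fun a b c => ∏ i, MvPolynomial.eval ![a.1 i, b.1 i, c.1 i] P)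
    (fun a => Finset.prod_ne_zero_iff.2 fun i _ => hdiag a.1 a.2 i)
    (fun a b c habc => by
      obtain ⟨i, hi⟩ := hoff a.1 a.2 b.1 b.2 c.1 c.2
        fun hh => habc ⟨Subtype.ext hh.1, Subtype.ext hh.2⟩
      exact Finset.prod_eq_zero (mem_univ i) hi)
    (fun e => mon e.1) (G S₀ 0 1 2) (fun e => mon e.1) (G S₁ 1 0 2)
    (fun e => mon e.1) (G S₂ 2 0 1) (fun a b c => by
      rw [hexp, ← Finset.sum_filter_add_sum_filter_not univ fun φ => expsOf P D 0 φ ∈ M,
        add_assoc]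
      congr 1
      · rw [← hfib S₀ 0 a (fun φ => cf φ * (m 1 φ b * m 2 φ c))
          fun φ hφ => (mem_filter.1 hφ).2]
        exact Finset.sum_congr rfl fun φ _ => by ring
      · rw [← Finset.sum_filter_add_sum_filter_not _ fun φ => expsOf P D 1 φ ∈ M,
          Finset.filter_filter, Finset.filter_filter]
        congr 1
        · rw [← hfib S₁ 1 b (fun φ => cf φ * (m 0 φ a * m 2 φ c))
            fun φ hφ => (mem_filter.1 hφ).2.2]
          exact Finset.sum_congr rfl fun φ _ => by ring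
        · rw [← hfib S₂ 2 c (fun φ => cf φ * (m 0 φ a * m 1 φ b))
            fun φ hφ => by
              obtain ⟨h0, h1⟩ := (mem_filter.1 hφ).2
              exact ((exists_low hD φ).resolve_left h0).resolve_left h1]
          exact Finset.sum_congr rfl fun φ _ => by ring)
  simp only [Fintype.card_coe] at h
  omega

/-- The number of low exponents against the generating polynomial. -/
theorem card_lowExps_mul_le (n D : ℕ) {u : ℝ} (hu0 : 0 ≤ u) (hu1 : u ≤ 1) :
    ((lowExps n D).card : ℝ) * (u ^ D) ^ n ≤ (∑ j ∈ range (D + 1), (u ^ 3) ^ j) ^ n := by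
  have h1 : ∀ e ∈ lowExps n D, (u ^ D) ^ n ≤ ∏ i, (u ^ 3) ^ (e i : ℕ) := fun e he => by
    rw [Finset.prod_pow_eq_pow_sum, ← pow_mul, ← pow_mul]
    exact pow_le_pow_of_le_one hu0 hu1 (mem_filter.1 he).2
  calc ((lowExps n D).card : ℝ) * (u ^ D) ^ n = ∑ e ∈ lowExps n D, (u ^ D) ^ n := by simp
    _ ≤ ∑ e ∈ lowExps n D, ∏ i, (u ^ 3) ^ (e i : ℕ) := Finset.sum_le_sum h1
    _ ≤ ∑ e : Fin n → Fin (D + 1), ∏ i, (u ^ 3) ^ (e i : ℕ) :=
        Finset.sum_le_sum_of_subset_of_nonneg (subset_univ _) fun e _ _ =>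
          Finset.prod_nonneg fun i _ => by positivity
    _ = (∑ j ∈ range (D + 1), (u ^ 3) ^ j) ^ n := by
        rw [← Fin.sum_univ_eq_sum_range, Fintype.sum_pow]

theorem card_lowExps_le (n D : ℕ) {u : ℝ} (hu0 : 0 < u) (hu1 : u ≤ 1) :
    ((lowExps n D).card : ℝ) ≤ ((∑ j ∈ range (D + 1), (u ^ 3) ^ j) / u ^ D) ^ n := by
  rw [div_pow, le_div_iff₀ (pow_pos (pow_pos hu0 D) n)]
  exact card_lowExps_mul_le n D hu0.le hu1

/-- Below `D + 1` for suitable `u < 1`. -/
theorem exists_u_lt {D : ℕ} (hD : 0 < D) :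
    ∃ u : ℝ, 0 < u ∧ u < 1 ∧ (∑ j ∈ range (D + 1), (u ^ 3) ^ j) / u ^ D < D + 1 := by
  set g : ℝ → ℝ := fun u => ∑ j ∈ range (D + 1), u ^ (3 * j) - (D + 1) * u ^ D with hg
  have hder : HasDerivAt g (∑ j ∈ range (D + 1), ((3 * j : ℕ) : ℝ) - (D + 1) * D) 1 := by
    have h1 : HasDerivAt (fun u : ℝ => ∑ j ∈ range (D + 1), u ^ (3 * j))
        (∑ j ∈ range (D + 1), ((3 * j : ℕ) : ℝ)) 1 :=
      HasDerivAt.fun_sum fun j _ => by simpa using hasDerivAt_pow (3 * j) (1 : ℝ)
    have h2 : HasDerivAt (fun u : ℝ => ((D : ℝ) + 1) * u ^ D) (((D : ℝ) + 1) * D) 1 := by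
      simpa using (hasDerivAt_pow D (1 : ℝ)).const_mul ((D : ℝ) + 1)
    exact h1.sub h2
  have hpos : 0 < ∑ j ∈ range (D + 1), ((3 * j : ℕ) : ℝ) - (D + 1) * D := by
    have h := Finset.sum_range_id_mul_two (D + 1)
    rw [Nat.add_sub_cancel] at h
    have h' := congrArg (Nat.cast : ℕ → ℝ) h
    push_cast at h'
    push_cast
    rw [← Finset.mul_sum]
    have hD' : (1 : ℝ) ≤ D := Nat.one_le_cast.2 hD
    nlinarith
  have hlim := (hasDerivWithinAt_iff_tendsto_slope'
    (Set.self_notMem_Iio (a := (1 : ℝ)))).1 (hder.hasDerivWithinAt (s := Set.Iio (1 : ℝ)))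
  obtain ⟨u, hu⟩ := (((hlim.eventually_const_lt hpos).and
    (Ioo_mem_nhdsLT (show (0 : ℝ) < 1 by norm_num))).and self_mem_nhdsWithin).exists
  obtain ⟨⟨hs, hu0, -⟩, hu1⟩ := hu
  have hu1' : u < 1 := hu1
  have hg1 : g 1 = 0 := by simp [hg]
  rw [slope_def_field, hg1, sub_zero] at hs
  have hgu : g u < 0 := by
    by_contra h
    push Not at h
    exact absurd hs (not_lt.2 (div_nonpos_of_nonneg_of_nonpos h (by linarith)))
  refine ⟨u, hu0, hu1', ?_⟩
  rw [div_lt_iff₀ (pow_pos hu0 D)]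
  have : ∑ j ∈ range (D + 1), (u ^ 3) ^ j = ∑ j ∈ range (D + 1), u ^ (3 * j) :=
    Finset.sum_congr rfl fun j _ => by rw [pow_mul]
  rw [this]
  simp only [hg] at hgu
  linarith

/-- For `D = 1` the low exponents are the small sets. -/
theorem card_lowExps_one (n : ℕ) :
    (lowExps n 1).card = ∑ j ∈ range (n / 3 + 1), n.choose j := by
  have h1 : (lowExps n 1).card =
      ((univ : Finset (Fin n)).powerset.filter fun s => 3 * s.card ≤ n).card := by
    refine Finset.card_bij' (fun e _ => univ.filter fun i => e i = 1)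
      (fun s _ => fun i => if i ∈ s then 1 else 0) ?_ ?_ ?_ ?_
    · intro e he
      rw [mem_filter, mem_powerset]
      refine ⟨subset_univ _, le_trans (le_of_eq ?_)
        ((mem_filter.1 he).2.trans (le_of_eq (one_mul n)))⟩
      rw [Finset.card_filter]
      congr 1
      refine Finset.sum_congr rfl fun i _ => ?_
      rcases Fin.exists_fin_two.1 ⟨e i, rfl⟩ with h | h <;> simp [h]
    · intro s hs
      rw [lowExps, mem_filter]
      refine ⟨mem_univ _, le_trans (le_of_eq ?_) ((mem_filter.1 hs).2.trans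
        (le_of_eq (one_mul n).symm))⟩
      congr 1
      simp [apply_ite]
    · intro e _
      funext i
      rcases Fin.exists_fin_two.1 ⟨e i, rfl⟩ with h | h <;> simp [h]
    · intro s _
      ext i
      by_cases h : i ∈ s <;> simp [h]
  have h2 : (univ : Finset (Fin n)).powerset.filter (fun s => 3 * s.card ≤ n) =
      (range (n / 3 + 1)).biUnion fun j => (univ : Finset (Fin n)).powersetCard j := by
    ext s
    simp only [mem_filter, mem_powerset, mem_biUnion, mem_range, mem_powersetCard]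
    refine ⟨fun h => ⟨s.card, by omega, h.1, rfl⟩, fun ⟨j, hj, h, e⟩ => ⟨h, by omega⟩⟩
  rw [h1, h2, Finset.card_biUnion]
  · simp [Finset.card_powersetCard]
  · intro i _ j _ hij
    refine Finset.disjoint_left.2 fun s hi hj => hij ?_
    rw [← (mem_powersetCard.1 hi).2, (mem_powersetCard.1 hj).2]

end FA.CapSet

end
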