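import Mathlib.LinearAlgebra.Matrix.Rank
import Mathlib.LinearAlgebra.Dimension.Finite

/-!
# The slice rank of a diagonal tensor

If a diagonal tensor with nonzero diagonal is a sum of `r` slices, its side is at most `r` (Tao).
-/

set_option autoImplicit false

namespace FA.CapSet

open Finset Module

variable {k A : Type*} [Field k] [Fintype A] [DecidableEq A]

omit [DecidableEq A] in
/-- A subspace contains a vector whose support is at least its dimension. -/
theorem exists_support_card (V : Submodule k (A → k)) :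
    ∃ v ∈ V, finrank k V ≤ Nat.card {a // v a ≠ 0} := by
  classical
  set P := (Finset.univ : Finset (Finset A)).filter
    fun S => ∃ v ∈ V, ∀ a, a ∈ S ↔ v a ≠ 0
  have hP : P.Nonempty := ⟨∅, mem_filter.2 ⟨mem_univ _, 0, V.zero_mem, fun a => by simp⟩⟩
  obtain ⟨S, hS, hmax⟩ := P.exists_max_image Finset.card hP
  obtain ⟨v, hv, hvS⟩ := (mem_filter.1 hS).2
  refine ⟨v, hv, ?_⟩
  by_contra hlt
  push Not at hlt
  let R : V →ₗ[k] ({a // v a ≠ 0} → k) :=
    (LinearMap.funLeft k k (Subtype.val : {a // v a ≠ 0} → A)).comp V.subtype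
  have hker : LinearMap.ker R ≠ ⊥ := LinearMap.ker_ne_bot_of_finrank_lt (by
    rw [finrank_fintype_fun_eq_card, ← Nat.card_eq_fintype_card]
    exact hlt)
  obtain ⟨w, hwker, hw0⟩ := (Submodule.ne_bot_iff _).1 hker
  have hwS : ∀ a, v a ≠ 0 → (w : A → k) a = 0 := fun a ha =>
    congrFun (LinearMap.mem_ker.1 hwker) ⟨a, ha⟩
  obtain ⟨b, hb⟩ : ∃ b, (w : A → k) b ≠ 0 := by
    by_contra h
    push Not at h
    exact hw0 (Subtype.ext (funext h))
  set u := v + (w : A → k)
  set S' := (Finset.univ : Finset A).filter fun a => u a ≠ 0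
  have hS' : S' ∈ P :=
    mem_filter.2 ⟨mem_univ _, u, V.add_mem hv w.2, fun a => by simp [S']⟩
  have hbv : v b = 0 := by
    by_contra h
    exact hb (hwS b h)
  have hsub : S ⊂ S' := by
    refine Finset.ssubset_iff_of_subset (fun a ha => ?_) |>.2 ⟨b, ?_, ?_⟩
    · have := (hvS a).1 ha
      simp [S', u, hwS a this, this]
    · simp [S', u, hbv, hb]
    · rw [hvS]; simp [hbv]
  exact absurd (hmax S' hS') (not_le.2 (Finset.card_lt_card hsub))

variable {ι κ μ : Type*} [Fintype ι] [Fintype κ] [Fintype μ]

/-- **The slice rank of a diagonal tensor.** -/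
theorem card_le_of_slices (F : A → A → A → k) (hdiag : ∀ a, F a a a ≠ 0)
    (hoff : ∀ a b c, ¬(a = b ∧ b = c) → F a b c = 0)
    (f : ι → A → k) (g : ι → A → A → k) (f' : κ → A → k) (g' : κ → A → A → k)
    (f'' : μ → A → k) (g'' : μ → A → A → k)
    (hF : ∀ a b c, F a b c =
      ∑ i, f i a * g i b c + ∑ j, f' j b * g' j a c + ∑ l, f'' l c * g'' l a b) :
    Fintype.card A ≤ Fintype.card ι + Fintype.card κ + Fintype.card μ := by
  classical
  let Φ : (A → k) →ₗ[k] (μ → k) :=
    { toFun := fun v l => ∑ c, v c * f'' l c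
      map_add' := fun u v => funext fun l => by simp [add_mul, Finset.sum_add_distrib]
      map_smul' := fun r v => funext fun l => by simp [Finset.mul_sum, mul_assoc] }
  have hV : Fintype.card A ≤ finrank k (LinearMap.ker Φ) + Fintype.card μ := by
    have h1 := LinearMap.finrank_range_add_finrank_ker Φ
    rw [finrank_fintype_fun_eq_card] at h1
    have h2 : finrank k (LinearMap.range Φ) ≤ Fintype.card μ :=
      (Submodule.finrank_le _).trans (le_of_eq (finrank_fintype_fun_eq_card (R := k) (η := μ)))
    omega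
  obtain ⟨v, hv, hvc⟩ := exists_support_card (LinearMap.ker Φ)
  set w : A → k := fun a => v a * F a a a
  set X : Matrix A (ι ⊕ κ) k := Matrix.of fun a => Sum.elim (fun i => f i a)
    (fun j => ∑ c, v c * g' j a c)
  set Y : Matrix (ι ⊕ κ) A k := Matrix.of fun t b => Sum.elim (fun i => ∑ c, v c * g i b c)
    (fun j => f' j b) t
  have hXY : Matrix.diagonal w = X * Y := by
    ext a b
    have hsum : ∑ c, v c * F a b c = Matrix.diagonal w a b := by
      by_cases hab : a = b
      · subst hab
        rw [Matrix.diagonal_apply_eq, Finset.sum_eq_single a]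
        · exact fun c _ hc => by rw [hoff a a c fun h => hc h.2.symm, mul_zero]
        · simp
      · rw [Matrix.diagonal_apply_ne _ hab]
        exact Finset.sum_eq_zero fun c _ => by rw [hoff a b c fun h => hab h.1, mul_zero]
    have hl : ∀ l, ∑ c, v c * f'' l c = 0 := congrFun (LinearMap.mem_ker.1 hv)
    rw [← hsum, Matrix.mul_apply, Fintype.sum_sum_type]
    simp only [hF, X, Y, Matrix.of_apply, Sum.elim_inl, Sum.elim_inr, mul_add, Finset.mul_sum,
      Finset.sum_mul, Finset.sum_add_distrib]
    have e3 : ∑ c, ∑ l, v c * (f'' l c * g'' l a b) = 0 := by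
      rw [Finset.sum_comm]
      refine Finset.sum_eq_zero fun l _ => ?_
      rw [← zero_mul (g'' l a b), ← hl l, Finset.sum_mul]
      exact Finset.sum_congr rfl fun c _ => by ring
    rw [e3, add_zero, Finset.sum_comm, Finset.sum_comm (γ := κ)]
    congr 1 <;>
      exact Finset.sum_congr rfl fun _ _ => Finset.sum_congr rfl fun _ _ => by ring
  have hrank : Nat.card {a // v a ≠ 0} ≤ Fintype.card ι + Fintype.card κ := by
    have hw : Nat.card {a // v a ≠ 0} = Fintype.card {a // w a ≠ 0} := by
      rw [← Nat.card_eq_fintype_card]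
      exact Nat.card_congr (Equiv.subtypeEquivRight fun a => by simp [w, hdiag a])
    rw [hw, ← Matrix.rank_diagonal, hXY, ← Fintype.card_sum]
    exact (Matrix.rank_mul_le_left X Y).trans (Matrix.rank_le_card_width X)
  omega

end FA.CapSet
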